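/-
S12 programme, bricks 754 LOC-UNIT / 755 LOC-2 (helper28), part 1: the valuation-theoretic core.

`K` a field, `v` a valuation, `W` a Weierstrass curve with `v`-integral coefficients.

* `val_y_sub_lt_one` : if `T = (e, f)` is a `2`-torsion point (`2f + a₁e + a₃ = 0`), `t = (x, y)`,
  all coordinates integral and `x ≡ e`, then `y ≡ f`.
* `val_x_sub_eq_one` : if moreover `ψ₂(t)` is a unit, `t` is killed by an odd `n` and `2n` is a unit,
  then `x - e` is a UNIT: otherwise `T - t` lies in the kernel of reduction (`ES/EC/CongE1_20`) and is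
  killed by `2n`, hence `T = t`, which is absurd.
-/
import Mathlib
import Fermat.Agent.ES.EC.CongE1_20

set_option autoImplicit false

open WeierstrassCurve WeierstrassCurve.Affine

namespace Fermat.Agent.S12P.LocUnit28

open Fermat.Agent.S05.Kernel Fermat.Agent.ES.EC.CongE1_20

variable {K : Type*} [Field K] {Γ₀ : Type*} [LinearOrderedCommGroupWithZero Γ₀]
  {v : Valuation K Γ₀} {W : Affine K}

/-- an integral `x` forces an integral `y`. -/
theorem val_y_le_one (hW : IntegralCoeffs v W) {x y : K} (h : W.Equation x y) (hx : v x ≤ 1) :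
    v y ≤ 1 := by
  by_contra hy
  exact absurd (vx_of_vy hW h (not_le.mp hy)) (not_lt.mpr hx)

/-- `x ≡ e` forces `y ≡ f` when `(e, f)` is a `2`-torsion point. -/
theorem val_y_sub_lt_one (hW : IntegralCoeffs v W) {x y e f : K} (h₁ : W.Equation x y)
    (h₂ : W.Equation e f) (hx : v x ≤ 1) (he : v e ≤ 1)
    (h2 : 2 * f + W.a₁ * e + W.a₃ = 0) (hxe : v (x - e) < 1) : v (y - f) < 1 := by
  have hy : v y ≤ 1 := val_y_le_one hW h₁ hx
  obtain ⟨ha₁, ha₂, ha₃, ha₄, ha₆⟩ := hW
  rw [equation_iff] at h₁ h₂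
  set G : K := x ^ 2 + x * e + e ^ 2 + W.a₂ * (x + e) + W.a₄ - W.a₁ * y with hG
  have hGle : v G ≤ 1 := by
    refine v.map_sub_le (v.map_add_le (v.map_add_le (v.map_add_le (v.map_add_le ?_ ?_) ?_) ?_) ha₄)
      ?_
    · rw [map_pow]; exact pow_le_one₀ zero_le hx
    · rw [map_mul]; exact mul_le_one' hx he
    · rw [map_pow]; exact pow_le_one₀ zero_le he
    · rw [map_mul]; exact mul_le_one' ha₂ (v.map_add_le hx he)
    · rw [map_mul]; exact mul_le_one' ha₁ hy
  have key : (y - f) ^ 2 = (x - e) * G := by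
    rw [hG]
    linear_combination h₁ - h₂ - (y - f) * h2
  have hsq : v (y - f) ^ 2 < 1 := by
    rw [← map_pow, key, map_mul]
    calc v (x - e) * v G ≤ v (x - e) * 1 := mul_le_mul_right hGle _
      _ = v (x - e) := mul_one _
      _ < 1 := hxe
  by_contra hcon
  exact absurd hsq (not_lt.mpr (one_le_pow₀ (not_lt.mp hcon)))

variable [DecidableEq K]

/-- a point with `2y + a₁x + a₃ = 0` is killed by `2`. -/
theorem two_nsmul_eq_zero_of_psi2 {e f : K} (h₂ : W.Nonsingular e f)
    (h2 : 2 * f + W.a₁ * e + W.a₃ = 0) : 2 • Point.some e f h₂ = 0 := by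
  rw [two_nsmul]
  exact Point.add_of_Y_eq rfl (by rw [negY]; linear_combination h2)

/-- **Core of LOC-UNIT.**  `t = (x, y)` killed by an odd `n`, `2n` a unit, `ψ₂(t)` a unit,
`T = (e, f)` an integral `2`-torsion point: `x(t) - x(T)` is a unit. -/
theorem val_x_sub_eq_one (hW : IntegralCoeffs v W) {x y e f : K} (h₁ : W.Nonsingular x y)
    (h₂ : W.Nonsingular e f) (he : v e ≤ 1) (h2 : 2 * f + W.a₁ * e + W.a₃ = 0)
    (hu : v (2 * y + W.a₁ * x + W.a₃) = 1) {n : ℕ} (hodd : Odd n) (hn : v (n : K) = 1)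
    (hv2 : v (2 : K) = 1) (ht : n • Point.some x y h₁ = 0) : v (x - e) = 1 := by
  have hx : v x ≤ 1 := x_integral_of_nsmul_eq_zero hW h₁ hn ht
  have hle : v (x - e) ≤ 1 := v.map_sub_le hx he
  by_contra hne
  have hlt : v (x - e) < 1 := lt_of_le_of_ne hle hne
  have hyf : v (y - f) < 1 := val_y_sub_lt_one hW h₁.1 h₂.1 hx he h2 hlt
  have hlt' : v (e - x) < 1 := by rw [← Valuation.map_neg, neg_sub]; exact hlt
  have hyf' : v (f - y) < 1 := by rw [← Valuation.map_neg, neg_sub]; exact hyf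
  have hE := sub_inE1_of_congruent hW h₂ h₁ he hx hlt' hyf' hu
  have h2T := two_nsmul_eq_zero_of_psi2 h₂ h2
  have hk : (2 * n) • (Point.some e f h₂ - Point.some x y h₁) = 0 := by
    rw [smul_sub, mul_nsmul, mul_comm, mul_nsmul, h2T, ht, smul_zero, smul_zero, sub_zero]
  have hv2n : v ((2 * n : ℕ) : K) = 1 := by
    rw [Nat.cast_mul, map_mul, hn, mul_one]
    exact_mod_cast hv2
  have hTt := sub_eq_zero.mp (eq_zero_of_nsmul_eq_zero hW hE hv2n hk)
  -- `T = t` is killed by `2` and by the odd `n`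
  obtain ⟨k, rfl⟩ := hodd
  rw [← hTt] at ht
  rw [add_nsmul, mul_nsmul, h2T, smul_zero, zero_add, one_nsmul] at ht
  exact Point.some_ne_zero h₂ ht

end Fermat.Agent.S12P.LocUnit28
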