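/-
S12 programme, bricks 754 LOC-UNIT / 755 LOC-2 (helper28), part 2.

`W : WeierstrassCurve ℤ`, `A` a valuation subring of a field `L`, `VL = W_L`, `t` a point of `VL`
in the zero component at `A` (`Loc44.InZero`, the general-field form of the Prelude's
`InZeroComponentAt`).

* `val_xco_sub_eq_one` (generic LOC-UNIT): `t ≠ 0` killed by an odd `n`, `2n ∈ Aˣ`, `T = (e, f)` an
  integral `2`-torsion point: `x(t) - e ∈ Aˣ`.
* `val_xco_eq_one_of_node` (generic LOC-2): `a₃ = a₆ = 0`, `a₄ ∈ 𝔪_A` (node at the origin): an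
  integral point with nonsingular reduction has `x ∈ Aˣ`.

Frey curve (`W = P.freyCurveInt`, `cA = a^p`, `cB = b^p`, `2`-torsion abscissas `0, cA/4, -cB/4`):

* `loc_unit`  (`v 2 = 1`, `v p = 1`): `x(t)`, `x(t) - cA/4`, `x(t) + cB/4` are units;
* `loc_two`   (`v 2 < 1`): `x(t)`, `x(t) + cB/4`, `4 x(t) - cA` are units;
* scaled forms `loc_unit_scaled`, `loc_two_scaled` for `4x`, `4x - cA`, `4x + cB`.
-/
import Mathlib
import Fermat.Agent.S12P.LocUnit28.Core
import Fermat.Agent.MAZ.Loc44.Main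
import Fermat.Agent.S04.FreyIntegral
import Fermat.Agent.MAZ.EF86.ModInv

set_option autoImplicit false
set_option linter.unusedSectionVars false

open WeierstrassCurve WeierstrassCurve.Affine

namespace Fermat.Agent.S12P.LocUnit28

open Fermat.Agent.S05.Kernel Fermat.Agent.S05.Inertia Fermat.Agent.InertiaMult
open Fermat.Agent.MAZ.Loc44 (InZero)
open Fermat.Agent.MAZ.ModInv (xco)

section Generic

variable {L : Type*} [Field L] [DecidableEq L] (W : WeierstrassCurve ℤ) {A : ValuationSubring L}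

/-- **Generic LOC-UNIT.** -/
theorem val_xco_sub_eq_one {n : ℕ} (hodd : Odd n) (hvn : A.valuation ((n : ℕ) : L) = 1)
    (hv2 : A.valuation (2 : L) = 1) {VL : Affine L}
    (hVL : VL = (W.map (Int.castRingHom L)).toAffine) {t : VL.Point} (ht : n • t = 0)
    (ht0 : t ≠ 0) (hZ : InZero W A t) {e f : L} (hT : VL.Nonsingular e f)
    (he : A.valuation e ≤ 1) (h2 : 2 * f + VL.a₁ * e + VL.a₃ = 0) :
    A.valuation (xco VL t - e) = 1 := by
  classical
  have hu := Fermat.Agent.MAZ.Loc44.val_psi2_eq_one W hodd hvn hVL ht ht0 hZ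
  subst hVL
  have hint : IntegralCoeffs A.valuation (W.map (Int.castRingHom L)).toAffine :=
    integralCoeffs_map W
  rcases t with _ | ⟨x, y, h⟩
  · exact absurd rfl ht0
  · rw [Fermat.Agent.MAZ.Loc44.psi2_some] at hu
    exact val_x_sub_eq_one hint h hT he h2 hu hodd hvn hv2 ht

/-- residue of an integer of valuation `< 1`. -/
theorem residue_intCast_eq_zero {n : ℤ} (hn : A.valuation ((n : ℤ) : L) < 1) :
    ((n : ℤ) : IsLocalRing.ResidueField A) = 0 := by
  have h0 : IsLocalRing.residue A ((n : ℤ) : A) = 0 := by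
    rw [IsLocalRing.residue_eq_zero_iff, ValuationSubring.valuation_lt_one_iff]
    simpa using hn
  rwa [map_intCast] at h0

/-- **Generic LOC-2** (node at the origin): an integral point with nonsingular reduction has a
unit `x`-coordinate. -/
theorem val_eq_one_of_node (h₃ : W.a₃ = 0) (h₆ : W.a₆ = 0)
    (h₄ : A.valuation ((W.a₄ : ℤ) : L) < 1) {x y : L} (hx : x ∈ A) (hy : y ∈ A)
    (hns : (W.map (Int.castRingHom (IsLocalRing.ResidueField A))).toAffine.Nonsingular
      (IsLocalRing.residue A ⟨x, hx⟩) (IsLocalRing.residue A ⟨y, hy⟩)) :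
    A.valuation x = 1 := by
  have hle : A.valuation x ≤ 1 := (A.valuation_le_one_iff x).mpr hx
  by_contra hne
  have hlt : A.valuation x < 1 := lt_of_le_of_ne hle hne
  have hx0 : IsLocalRing.residue A ⟨x, hx⟩ = 0 := by
    rw [IsLocalRing.residue_eq_zero_iff, ValuationSubring.valuation_lt_one_iff]
    exact hlt
  have ha₄ : ((W.a₄ : ℤ) : IsLocalRing.ResidueField A) = 0 := residue_intCast_eq_zero h₄
  rw [nonsingular_iff, equation_iff] at hns
  simp only [map_a₁, map_a₂, map_a₃, map_a₄, map_a₆, eq_intCast, hx0, h₃, h₆, ha₄,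
    Int.cast_zero] at hns
  obtain ⟨heq, hor⟩ := hns
  have hy0 : IsLocalRing.residue A ⟨y, hy⟩ = 0 := by
    have : IsLocalRing.residue A ⟨y, hy⟩ ^ 2 = 0 := by
      linear_combination heq
    exact pow_eq_zero_iff (by norm_num) |>.mp this
  rw [hy0] at hor
  rcases hor with h | h
  · exact h (by ring)
  · exact h (by ring)

/-- **Generic LOC-2**, point form. -/
theorem val_xco_eq_one_of_node (h₃ : W.a₃ = 0) (h₆ : W.a₆ = 0)
    (h₄ : A.valuation ((W.a₄ : ℤ) : L) < 1) {n : ℕ} (hvn : A.valuation ((n : ℕ) : L) = 1)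
    {VL : Affine L} (hVL : VL = (W.map (Int.castRingHom L)).toAffine) {t : VL.Point}
    (ht : n • t = 0) (ht0 : t ≠ 0) (hZ : InZero W A t) : A.valuation (xco VL t) = 1 := by
  classical
  subst hVL
  have hint : IntegralCoeffs A.valuation (W.map (Int.castRingHom L)).toAffine :=
    integralCoeffs_map W
  rcases hZ with rfl | ⟨x, y, h, rfl, hx | ⟨hx, hy, hns⟩⟩
  · exact absurd rfl ht0
  · exfalso
    apply hx
    exact (A.valuation_le_one_iff x).mp (x_integral_of_nsmul_eq_zero hint h hvn ht)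
  · exact val_eq_one_of_node W h₃ h₆ h₄ hx hy hns

end Generic

/-! ### The Frey curve -/

section Frey

open Fermat.Agent.S04.FreyIntegral

variable (P : FreyPackage) {L : Type*} [Field L] [CharZero L]

/-- `a ^ p` in `L`. -/
def cA (L : Type*) [Field L] : L := ((P.a : ℤ) : L) ^ P.p
/-- `b ^ p` in `L`. -/
def cB (L : Type*) [Field L] : L := ((P.b : ℤ) : L) ^ P.p

theorem four_mul_a₂_cast :
    4 * ((P.freyCurveInt.a₂ : ℤ) : L) = cB P L - 1 - cA P L := by
  have h := congrArg (Int.cast : ℤ → L) (four_mul_a₂ P)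
  simp only [cA, cB]
  push_cast at h
  exact h

theorem sixteen_mul_a₄_cast :
    16 * ((P.freyCurveInt.a₄ : ℤ) : L) = -(cA P L * cB P L) := by
  have h := congrArg (Int.cast : ℤ → L) (sixteen_mul_a₄ P)
  simp only [cA, cB]
  push_cast at h
  linear_combination h

theorem cA_ne_zero : cA P L ≠ 0 := pow_ne_zero _ (Int.cast_ne_zero.mpr P.ha0)
theorem cB_ne_zero : cB P L ≠ 0 := pow_ne_zero _ (Int.cast_ne_zero.mpr P.hb0)

theorem cA_add_cB : cA P L + cB P L = ((P.c : ℤ) : L) ^ P.p := by
  have h := congrArg (Int.cast : ℤ → L) P.hFLT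
  simp only [cA, cB]
  push_cast at h
  exact h

theorem cA_add_cB_ne_zero : cA P L + cB P L ≠ 0 := by
  rw [cA_add_cB]
  exact pow_ne_zero _ (Int.cast_ne_zero.mpr P.hc0)

variable {VL : Affine L} (hVL : VL = (P.freyCurveInt.map (Int.castRingHom L)).toAffine)
include hVL

theorem frey_a₁ : VL.a₁ = 1 := by
  subst hVL; simp [FreyPackage.freyCurveInt]

theorem frey_a₃ : VL.a₃ = 0 := by
  subst hVL; simp [FreyPackage.freyCurveInt]

theorem frey_a₆ : VL.a₆ = 0 := by
  subst hVL; simp [FreyPackage.freyCurveInt]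

theorem frey_a₂ : 4 * VL.a₂ = cB P L - 1 - cA P L := by
  subst hVL
  rw [map_a₂, eq_intCast]
  exact four_mul_a₂_cast P

theorem frey_a₄ : 16 * VL.a₄ = -(cA P L * cB P L) := by
  subst hVL
  rw [map_a₄, eq_intCast]
  exact sixteen_mul_a₄_cast P

/-- a point `(e, -e/2)` with `e (e - cA/4) (e + cB/4) = 0` lies on the Frey curve. -/
theorem frey_equation_two_torsion {e : L} (he : e * (4 * e - cA P L) * (4 * e + cB P L) = 0) :
    VL.Equation e (-e / 2) := by
  rw [equation_iff, frey_a₁ P hVL, frey_a₃ P hVL, frey_a₆ P hVL]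
  have h2 := frey_a₂ P hVL
  have h4 := frey_a₄ P hVL
  have h2' : VL.a₂ = (cB P L - 1 - cA P L) / 4 := by
    field_simp; linear_combination h2
  have h4' : VL.a₄ = -(cA P L * cB P L) / 16 := by
    field_simp; linear_combination h4
  rw [h2', h4']
  field_simp
  linear_combination (-16 : L) * he

/-- the `2`-torsion points are nonsingular. -/
theorem frey_nonsingular_two_torsion {e : L}
    (he : e * (4 * e - cA P L) * (4 * e + cB P L) = 0) : VL.Nonsingular e (-e / 2) := by
  have heq := frey_equation_two_torsion P hVL he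
  rw [nonsingular_iff]
  refine ⟨heq, Or.inl ?_⟩
  rw [frey_a₁ P hVL]
  have h2 := frey_a₂ P hVL
  have h4 := frey_a₄ P hVL
  have hA := cA_ne_zero P (L := L)
  have hB := cB_ne_zero P (L := L)
  have hC := cA_add_cB_ne_zero P (L := L)
  intro hcon
  -- `16 * (F_x) = -(derivative of the cubic)`
  have key : 48 * e ^ 2 + 8 * (cB P L - cA P L) * e - cA P L * cB P L = 0 := by
    linear_combination (-16 : L) * hcon - 8 * e * h2 - h4
  rcases mul_eq_zero.mp he with h | h
  · rcases mul_eq_zero.mp h with h | h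
    · rw [h] at key
      apply mul_ne_zero hA hB
      linear_combination -key
    · have he' : 4 * e = cA P L := by linear_combination h
      apply mul_ne_zero hA hC
      linear_combination key - (12 * e + 3 * cA P L + 2 * (cB P L - cA P L)) * he'
  · have he' : 4 * e = -cB P L := by linear_combination h
    apply mul_ne_zero hB hC
    linear_combination key + (3 * cB P L - 12 * e - 2 * (cB P L - cA P L)) * he'

theorem frey_psi2_two_torsion (e : L) : 2 * (-e / 2) + VL.a₁ * e + VL.a₃ = 0 := by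
  rw [frey_a₁ P hVL, frey_a₃ P hVL]; ring

omit hVL in
theorem val_cA_le_one {A : ValuationSubring L} : A.valuation (cA P L) ≤ 1 := by
  rw [cA, map_pow]; exact pow_le_one₀ zero_le (valuation_intCast_le_one _)

omit hVL in
theorem val_cB_le_one {A : ValuationSubring L} : A.valuation (cB P L) ≤ 1 := by
  rw [cB, map_pow]; exact pow_le_one₀ zero_le (valuation_intCast_le_one _)

omit hVL in
theorem val_four_eq_one {A : ValuationSubring L} (hv2 : A.valuation (2 : L) = 1) :
    A.valuation (4 : L) = 1 := by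
  rw [show (4 : L) = 2 * 2 by norm_num, map_mul, hv2, mul_one]

omit hVL in
theorem val_four_lt_one {A : ValuationSubring L} (hv2 : A.valuation (2 : L) < 1) :
    A.valuation (4 : L) < 1 := by
  rw [show (4 : L) = 2 * 2 by norm_num, map_mul]
  calc A.valuation (2 : L) * A.valuation (2 : L) ≤ A.valuation (2 : L) * 1 :=
        mul_le_mul_right hv2.le _
    _ < 1 := by rwa [mul_one]

variable [DecidableEq L] {A : ValuationSubring L}

/-- **LOC-UNIT** (brick 754): at a place where `2` and `p` are units, a nonzero `p`-torsion point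
`t` of the Frey curve lying in the zero component has `x(t) - e ∈ Aˣ` for the three `2`-torsion
abscissas `e = 0, a^p/4, -b^p/4`. -/
theorem loc_unit (hv2 : A.valuation (2 : L) = 1) (hvp : A.valuation ((P.p : ℕ) : L) = 1)
    {t : VL.Point} (htp : P.p • t = 0) (ht0 : t ≠ 0) (hZ : InZero P.freyCurveInt A t) :
    A.valuation (xco VL t) = 1 ∧ A.valuation (xco VL t - cA P L / 4) = 1 ∧
      A.valuation (xco VL t + cB P L / 4) = 1 := by
  have h4 : A.valuation (4 : L) = 1 := val_four_eq_one hv2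
  have key : ∀ e : L, e * (4 * e - cA P L) * (4 * e + cB P L) = 0 → A.valuation e ≤ 1 →
      A.valuation (xco VL t - e) = 1 := fun e he hle =>
    val_xco_sub_eq_one P.freyCurveInt P.hp_odd hvp hv2 hVL htp ht0 hZ
      (frey_nonsingular_two_torsion P hVL he) hle (frey_psi2_two_torsion P hVL e)
  refine ⟨?_, ?_, ?_⟩
  · have := key 0 (by ring) (by rw [map_zero]; exact zero_le_one)
    rwa [sub_zero] at this
  · refine key (cA P L / 4) (by ring) ?_
    rw [map_div₀, h4, div_one]; exact val_cA_le_one P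
  · have := key (-cB P L / 4) (by ring) (by
      rw [map_div₀, h4, div_one, Valuation.map_neg]; exact val_cB_le_one P)
    rwa [show xco VL t - -cB P L / 4 = xco VL t + cB P L / 4 by ring] at this

/-- **LOC-UNIT**, Frey scale `4x`. -/
theorem loc_unit_scaled (hv2 : A.valuation (2 : L) = 1) (hvp : A.valuation ((P.p : ℕ) : L) = 1)
    {t : VL.Point} (htp : P.p • t = 0) (ht0 : t ≠ 0) (hZ : InZero P.freyCurveInt A t) :
    A.valuation (4 * xco VL t) = 1 ∧ A.valuation (4 * xco VL t - cA P L) = 1 ∧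
      A.valuation (4 * xco VL t + cB P L) = 1 := by
  have h4 : A.valuation (4 : L) = 1 := val_four_eq_one hv2
  obtain ⟨h1, h2, h3⟩ := loc_unit P hVL hv2 hvp htp ht0 hZ
  refine ⟨?_, ?_, ?_⟩
  · rw [map_mul, h4, h1, one_mul]
  · rw [show 4 * xco VL t - cA P L = 4 * (xco VL t - cA P L / 4) by ring, map_mul, h4, h2,
      one_mul]
  · rw [show 4 * xco VL t + cB P L = 4 * (xco VL t + cB P L / 4) by ring, map_mul, h4, h3,
      one_mul]

omit hVL [CharZero L] [DecidableEq L] in
/-- `a₄` of the Frey curve is even. -/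
theorem val_frey_a₄_lt_one (hv2 : A.valuation (2 : L) < 1) :
    A.valuation ((P.freyCurveInt.a₄ : ℤ) : L) < 1 := by
  obtain ⟨k, hk⟩ := thirtytwo_dvd_b_pow P
  have h16 := sixteen_mul_a₄ P
  have h : P.freyCurveInt.a₄ = 2 * (-(P.a ^ P.p) * k) := by
    have : (16 : ℤ) * P.freyCurveInt.a₄ = 16 * (2 * (-(P.a ^ P.p) * k)) := by
      rw [h16, hk]; ring
    exact mul_left_cancel₀ (by norm_num) this
  rw [h, Int.cast_mul, map_mul]
  calc A.valuation ((2 : ℤ) : L) * A.valuation ((-(P.a ^ P.p) * k : ℤ) : L)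
      ≤ A.valuation ((2 : ℤ) : L) * 1 := mul_le_mul_right (valuation_intCast_le_one _) _
    _ < 1 := by rw [mul_one]; simpa using hv2

omit hVL [DecidableEq L] in
/-- `b^p/4` is divisible by `8`. -/
theorem val_cB_div_four_lt_one (hv2 : A.valuation (2 : L) < 1) :
    A.valuation (cB P L / 4) < 1 := by
  obtain ⟨k, hk⟩ := thirtytwo_dvd_b_pow P
  have h : cB P L / 4 = 2 * ((4 * k : ℤ) : L) := by
    have hc : cB P L = ((32 * k : ℤ) : L) := by
      rw [cB, ← hk]; push_cast; ring
    rw [hc]; push_cast; ring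
  rw [h, map_mul]
  calc A.valuation (2 : L) * A.valuation ((4 * k : ℤ) : L)
      ≤ A.valuation (2 : L) * 1 := mul_le_mul_right (valuation_intCast_le_one _) _
    _ < 1 := by rw [mul_one]; exact hv2

omit hVL [DecidableEq L] in
/-- `b^p` is divisible by `32`, in particular `v(b^p) < v(4)`. -/
theorem val_cB_lt_val_four (hv2 : A.valuation (2 : L) < 1) :
    A.valuation (cB P L) < A.valuation (4 : L) := by
  have h4 : (4 : L) ≠ 0 := by norm_num
  have h40 : 0 < A.valuation (4 : L) := zero_lt_iff.mpr ((map_ne_zero _).mpr h4)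
  have := val_cB_div_four_lt_one P hv2
  rw [map_div₀, div_lt_iff₀ h40, one_mul] at this
  exact this

omit hVL [DecidableEq L] in
/-- `a^p` is odd. -/
theorem val_cA_eq_one (hv2 : A.valuation (2 : L) < 1) : A.valuation (cA P L) = 1 := by
  obtain ⟨k, hk⟩ := four_dvd_a_pow_add_one P
  have hc : cA P L = ((4 * k : ℤ) : L) - 1 := by
    have : P.a ^ P.p = 4 * k - 1 := by linarith
    rw [cA, ← Int.cast_pow, this]; push_cast; ring
  have hlt : A.valuation (((4 * k : ℤ)) : L) < 1 := by
    rw [Int.cast_mul, map_mul]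
    calc A.valuation ((4 : ℤ) : L) * A.valuation ((k : ℤ) : L)
        ≤ A.valuation ((4 : ℤ) : L) * 1 := mul_le_mul_right (valuation_intCast_le_one _) _
      _ < 1 := by rw [mul_one]; simpa using val_four_lt_one hv2
  rw [hc, Valuation.map_sub_eq_of_lt_right _ (by rw [map_one]; exact hlt), map_one]

/-- **LOC-2** (brick 755): at a place over `2`, a nonzero `p`-torsion point `t` of the Frey curve
lying in the zero component has `x(t)`, `x(t) + b^p/4` and `4 x(t) - a^p` units. -/
theorem loc_two (hv2 : A.valuation (2 : L) < 1) (hvp : A.valuation ((P.p : ℕ) : L) = 1)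
    {t : VL.Point} (htp : P.p • t = 0) (ht0 : t ≠ 0) (hZ : InZero P.freyCurveInt A t) :
    A.valuation (xco VL t) = 1 ∧ A.valuation (xco VL t + cB P L / 4) = 1 ∧
      A.valuation (4 * xco VL t - cA P L) = 1 := by
  have hx : A.valuation (xco VL t) = 1 :=
    val_xco_eq_one_of_node P.freyCurveInt rfl rfl (val_frey_a₄_lt_one P hv2) hvp hVL htp ht0 hZ
  refine ⟨hx, ?_, ?_⟩
  · rw [Valuation.map_add_eq_of_lt_left _ (by rw [hx]; exact val_cB_div_four_lt_one P hv2), hx]
  · have h4x : A.valuation (4 * xco VL t) < 1 := by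
      rw [map_mul, hx, mul_one]; exact val_four_lt_one hv2
    rw [Valuation.map_sub_eq_of_lt_right _ (by rw [val_cA_eq_one P hv2]; exact h4x),
      val_cA_eq_one P hv2]

/-- **LOC-2**, Frey scale `4x`: the valuations of `4x, 4x - a^p, 4x + b^p` are `(v 4, 1, v 4)`. -/
theorem loc_two_scaled (hv2 : A.valuation (2 : L) < 1) (hvp : A.valuation ((P.p : ℕ) : L) = 1)
    {t : VL.Point} (htp : P.p • t = 0) (ht0 : t ≠ 0) (hZ : InZero P.freyCurveInt A t) :
    A.valuation (4 * xco VL t) = A.valuation (4 : L) ∧ A.valuation (4 * xco VL t - cA P L) = 1 ∧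
      A.valuation (4 * xco VL t + cB P L) = A.valuation (4 : L) := by
  obtain ⟨h1, h2, h3⟩ := loc_two P hVL hv2 hvp htp ht0 hZ
  refine ⟨?_, h3, ?_⟩
  · rw [map_mul, h1, mul_one]
  · rw [show 4 * xco VL t + cB P L = 4 * (xco VL t + cB P L / 4) by ring, map_mul, h2, mul_one]

end Frey

end Fermat.Agent.S12P.LocUnit28
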