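/-
S12 programme, bricks 754 LOC-UNIT / 755 LOC-2 (helper28), part 3: product forms and `ℚ̄`-forms.

`P : FreyPackage`, `cA = a^p`, `cB = b^p`, `t` a nonzero `p`-torsion point of the Frey curve in the zero
component at `A` (`Loc44.InZero P.freyCurveInt A t`, which for points of
`(P.freyCurveInt.map (Int.castRingHom ℚ))⁄ℚ̄` is the Prelude's `InZeroComponentAt` by `Iff.rfl`).

* `loc_unit_prod`, `loc_two_prod` : the products over `k ∈ s` (`p ∤ k`) of `4x(kt)`, `4x(kt) - cA`,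
  `4x(kt) + cB` have valuations `(1, 1, 1)`, resp. `(v 4 ^ #s, 1, v 4 ^ #s)`.
* `ℚ̄`-forms for `A` over a prime `ℓ ∤ 2p` (`loc_unit_Qb*`), resp. over `2` (`loc_two_Qb*`), for both
  incarnations `P.freyCurve⁄ℚ̄` and `(P.freyCurveInt.map (Int.castRingHom ℚ))⁄ℚ̄` of the Frey curve.
-/
import Mathlib
import Fermat.Agent.S12P.LocUnit28.Frey

set_option autoImplicit false
set_option linter.unusedSectionVars false

open WeierstrassCurve WeierstrassCurve.Affine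

namespace Fermat.Agent.S12P.LocUnit28

open Fermat.Agent.S05.Kernel Fermat.Agent.S05.Inertia Fermat.Agent.InertiaMult
open Fermat.Agent.MAZ.Loc44 (InZero)
open Fermat.Agent.MAZ.ModInv (xco)
open Fermat.Agent.S04.FreyIntegral

section Prod

variable (P : FreyPackage) {L : Type*} [Field L] [CharZero L] [DecidableEq L]
  {A : ValuationSubring L} {VL : Affine L}
  (hVL : VL = (P.freyCurveInt.map (Int.castRingHom L)).toAffine)
include hVL

/-- the multiples `k • t`, `p ∤ k`, of a nonzero `p`-torsion point of the zero component are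
nonzero `p`-torsion points of the zero component. -/
theorem nsmul_data (hvp : A.valuation ((P.p : ℕ) : L) = 1) {t : VL.Point} (htp : P.p • t = 0)
    (ht0 : t ≠ 0) (hZ : InZero P.freyCurveInt A t) {k : ℕ} (hk : ¬ P.p ∣ k) :
    P.p • (k • t) = 0 ∧ k • t ≠ 0 ∧ InZero P.freyCurveInt A (k • t) := by
  classical
  refine ⟨by rw [smul_comm, htp, smul_zero], ?_, ?_⟩
  · exact Fermat.Agent.MAZ.Loc44.nsmul_ne_zero_of_not_dvd P.pp htp ht0 hk
  · exact Fermat.Agent.MAZ.Loc44.inZero_nsmul P.freyCurveInt P.hp_odd hvp hVL htp hZ k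

/-- **LOC-UNIT**, product form. -/
theorem loc_unit_prod (hv2 : A.valuation (2 : L) = 1) (hvp : A.valuation ((P.p : ℕ) : L) = 1)
    {t : VL.Point} (htp : P.p • t = 0) (ht0 : t ≠ 0) (hZ : InZero P.freyCurveInt A t)
    (s : Finset ℕ) (hs : ∀ k ∈ s, ¬ P.p ∣ k) :
    A.valuation (∏ k ∈ s, (4 * xco VL (k • t))) = 1 ∧
      A.valuation (∏ k ∈ s, (4 * xco VL (k • t) - cA P L)) = 1 ∧
      A.valuation (∏ k ∈ s, (4 * xco VL (k • t) + cB P L)) = 1 := by
  have key : ∀ k ∈ s, A.valuation (4 * xco VL (k • t)) = 1 ∧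
      A.valuation (4 * xco VL (k • t) - cA P L) = 1 ∧
      A.valuation (4 * xco VL (k • t) + cB P L) = 1 := fun k hk => by
    obtain ⟨h1, h2, h3⟩ := nsmul_data P hVL hvp htp ht0 hZ (hs k hk)
    exact loc_unit_scaled P hVL hv2 hvp h1 h2 h3
  refine ⟨?_, ?_, ?_⟩
  · rw [map_prod]; exact Finset.prod_eq_one fun k hk => (key k hk).1
  · rw [map_prod]; exact Finset.prod_eq_one fun k hk => (key k hk).2.1
  · rw [map_prod]; exact Finset.prod_eq_one fun k hk => (key k hk).2.2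

/-- **LOC-2**, product form: the valuations are `(v 4 ^ #s, 1, v 4 ^ #s)`. -/
theorem loc_two_prod (hv2 : A.valuation (2 : L) < 1) (hvp : A.valuation ((P.p : ℕ) : L) = 1)
    {t : VL.Point} (htp : P.p • t = 0) (ht0 : t ≠ 0) (hZ : InZero P.freyCurveInt A t)
    (s : Finset ℕ) (hs : ∀ k ∈ s, ¬ P.p ∣ k) :
    A.valuation (∏ k ∈ s, (4 * xco VL (k • t))) = A.valuation (4 : L) ^ s.card ∧
      A.valuation (∏ k ∈ s, (4 * xco VL (k • t) - cA P L)) = 1 ∧
      A.valuation (∏ k ∈ s, (4 * xco VL (k • t) + cB P L)) = A.valuation (4 : L) ^ s.card := by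
  have key : ∀ k ∈ s, A.valuation (4 * xco VL (k • t)) = A.valuation (4 : L) ∧
      A.valuation (4 * xco VL (k • t) - cA P L) = 1 ∧
      A.valuation (4 * xco VL (k • t) + cB P L) = A.valuation (4 : L) := fun k hk => by
    obtain ⟨h1, h2, h3⟩ := nsmul_data P hVL hvp htp ht0 hZ (hs k hk)
    exact loc_two_scaled P hVL hv2 hvp h1 h2 h3
  refine ⟨?_, ?_, ?_⟩
  · rw [map_prod, Finset.prod_congr rfl fun k hk => (key k hk).1, Finset.prod_const]
  · rw [map_prod]; exact Finset.prod_eq_one fun k hk => (key k hk).2.1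
  · rw [map_prod, Finset.prod_congr rfl fun k hk => (key k hk).2.2, Finset.prod_const]

end Prod

/-! ### `ℚ̄`-forms -/

section Qbar

local notation "Qb" => AlgebraicClosure ℚ

variable (P : FreyPackage)

/-- the integral model over `ℚ̄`, first incarnation. -/
theorem freyInt_baseChange_eq_map :
    ((P.freyCurveInt.map (Int.castRingHom ℚ))⁄Qb) =
      (P.freyCurveInt.map (Int.castRingHom Qb)).toAffine :=
  Fermat.Agent.ES.EC.TorsionLift20.baseChange_eq_map P.freyCurveInt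

/-- the integral model over `ℚ̄`, second incarnation (`P.freyCurve`). -/
theorem freyCurve_baseChange_eq_map :
    (P.freyCurve⁄Qb) = (P.freyCurveInt.map (Int.castRingHom Qb)).toAffine := by
  rw [← freyCurveInt_map P]
  exact freyInt_baseChange_eq_map P

variable {A : ValuationSubring Qb} {VL : Affine Qb}
  (hVL : VL = (P.freyCurveInt.map (Int.castRingHom Qb)).toAffine)
include hVL

/-- **LOC-UNIT** over `ℚ̄`: `A` over a prime `ℓ ∤ 2p`. -/
theorem loc_unit_Qb {ℓ : ℕ} (hℓ : ℓ.Prime) (hℓ2 : ℓ ≠ 2) (hℓp : ℓ ≠ P.p)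
    (hA : A.LiesOverPrime ℓ) {t : VL.Point} (htp : P.p • t = 0) (ht0 : t ≠ 0)
    (hZ : InZero P.freyCurveInt A t) :
    A.valuation (4 * xco VL t) = 1 ∧ A.valuation (4 * xco VL t - cA P Qb) = 1 ∧
      A.valuation (4 * xco VL t + cB P Qb) = 1 :=
  loc_unit_scaled P hVL (valuation_two_eq_one hℓ hA hℓ2) (valuation_prime_eq_one hℓ hA P.pp hℓp)
    htp ht0 hZ

/-- **LOC-UNIT** over `ℚ̄`, unscaled: `x(t) - e ∈ Aˣ` for `e = 0, a^p/4, -b^p/4`. -/
theorem loc_unit_Qb_unscaled {ℓ : ℕ} (hℓ : ℓ.Prime) (hℓ2 : ℓ ≠ 2) (hℓp : ℓ ≠ P.p)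
    (hA : A.LiesOverPrime ℓ) {t : VL.Point} (htp : P.p • t = 0) (ht0 : t ≠ 0)
    (hZ : InZero P.freyCurveInt A t) :
    A.valuation (xco VL t) = 1 ∧ A.valuation (xco VL t - cA P Qb / 4) = 1 ∧
      A.valuation (xco VL t + cB P Qb / 4) = 1 :=
  loc_unit P hVL (valuation_two_eq_one hℓ hA hℓ2) (valuation_prime_eq_one hℓ hA P.pp hℓp)
    htp ht0 hZ

/-- **LOC-UNIT** over `ℚ̄`, product form. -/
theorem loc_unit_Qb_prod {ℓ : ℕ} (hℓ : ℓ.Prime) (hℓ2 : ℓ ≠ 2) (hℓp : ℓ ≠ P.p)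
    (hA : A.LiesOverPrime ℓ) {t : VL.Point} (htp : P.p • t = 0) (ht0 : t ≠ 0)
    (hZ : InZero P.freyCurveInt A t) (s : Finset ℕ) (hs : ∀ k ∈ s, ¬ P.p ∣ k) :
    A.valuation (∏ k ∈ s, (4 * xco VL (k • t))) = 1 ∧
      A.valuation (∏ k ∈ s, (4 * xco VL (k • t) - cA P Qb)) = 1 ∧
      A.valuation (∏ k ∈ s, (4 * xco VL (k • t) + cB P Qb)) = 1 :=
  loc_unit_prod P hVL (valuation_two_eq_one hℓ hA hℓ2) (valuation_prime_eq_one hℓ hA P.pp hℓp)
    htp ht0 hZ s hs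

omit hVL in
theorem val_two_lt_one_of_liesOver (hA : A.LiesOverPrime 2) : A.valuation (2 : Qb) < 1 := by
  simpa using valuation_prime_lt_one hA

omit hVL in
theorem val_p_eq_one_of_liesOver_two (hA : A.LiesOverPrime 2) :
    A.valuation ((P.p : ℕ) : Qb) = 1 :=
  valuation_prime_eq_one Nat.prime_two hA P.pp (by have := P.hp5; omega)

/-- **LOC-2** over `ℚ̄`: `A` over `2`; the valuations of `4x, 4x - a^p, 4x + b^p` are
`(v 4, 1, v 4)`. -/
theorem loc_two_Qb (hA : A.LiesOverPrime 2) {t : VL.Point} (htp : P.p • t = 0) (ht0 : t ≠ 0)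
    (hZ : InZero P.freyCurveInt A t) :
    A.valuation (4 * xco VL t) = A.valuation (4 : Qb) ∧
      A.valuation (4 * xco VL t - cA P Qb) = 1 ∧
      A.valuation (4 * xco VL t + cB P Qb) = A.valuation (4 : Qb) :=
  loc_two_scaled P hVL (val_two_lt_one_of_liesOver hA) (val_p_eq_one_of_liesOver_two P hA)
    htp ht0 hZ

/-- **LOC-2** over `ℚ̄`, unscaled: `x(t)`, `x(t) + b^p/4`, `4x(t) - a^p` are units. -/
theorem loc_two_Qb_unscaled (hA : A.LiesOverPrime 2) {t : VL.Point} (htp : P.p • t = 0)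
    (ht0 : t ≠ 0) (hZ : InZero P.freyCurveInt A t) :
    A.valuation (xco VL t) = 1 ∧ A.valuation (xco VL t + cB P Qb / 4) = 1 ∧
      A.valuation (4 * xco VL t - cA P Qb) = 1 :=
  loc_two P hVL (val_two_lt_one_of_liesOver hA) (val_p_eq_one_of_liesOver_two P hA) htp ht0 hZ

/-- **LOC-2** over `ℚ̄`, product form. -/
theorem loc_two_Qb_prod (hA : A.LiesOverPrime 2) {t : VL.Point} (htp : P.p • t = 0)
    (ht0 : t ≠ 0) (hZ : InZero P.freyCurveInt A t) (s : Finset ℕ) (hs : ∀ k ∈ s, ¬ P.p ∣ k) :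
    A.valuation (∏ k ∈ s, (4 * xco VL (k • t))) = A.valuation (4 : Qb) ^ s.card ∧
      A.valuation (∏ k ∈ s, (4 * xco VL (k • t) - cA P Qb)) = 1 ∧
      A.valuation (∏ k ∈ s, (4 * xco VL (k • t) + cB P Qb)) = A.valuation (4 : Qb) ^ s.card :=
  loc_two_prod P hVL (val_two_lt_one_of_liesOver hA) (val_p_eq_one_of_liesOver_two P hA)
    htp ht0 hZ s hs

end Qbar

/-! ### The two incarnations of the Frey curve over `ℚ̄` -/

section Incarnations

local notation "Qb" => AlgebraicClosure ℚ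

variable (P : FreyPackage) {A : ValuationSubring Qb}

/-- **LOC-UNIT** for points of `P.freyCurve⁄ℚ̄`. -/
theorem loc_unit_freyCurve {ℓ : ℕ} (hℓ : ℓ.Prime) (hℓ2 : ℓ ≠ 2) (hℓp : ℓ ≠ P.p)
    (hA : A.LiesOverPrime ℓ) {t : (P.freyCurve⁄Qb).Point} (htp : P.p • t = 0) (ht0 : t ≠ 0)
    (hZ : InZero P.freyCurveInt A t) :
    A.valuation (4 * xco (P.freyCurve⁄Qb) t) = 1 ∧
      A.valuation (4 * xco (P.freyCurve⁄Qb) t - cA P Qb) = 1 ∧
      A.valuation (4 * xco (P.freyCurve⁄Qb) t + cB P Qb) = 1 :=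
  loc_unit_Qb P (freyCurve_baseChange_eq_map P) hℓ hℓ2 hℓp hA htp ht0 hZ

/-- **LOC-2** for points of `P.freyCurve⁄ℚ̄`. -/
theorem loc_two_freyCurve (hA : A.LiesOverPrime 2) {t : (P.freyCurve⁄Qb).Point}
    (htp : P.p • t = 0) (ht0 : t ≠ 0) (hZ : InZero P.freyCurveInt A t) :
    A.valuation (4 * xco (P.freyCurve⁄Qb) t) = A.valuation (4 : Qb) ∧
      A.valuation (4 * xco (P.freyCurve⁄Qb) t - cA P Qb) = 1 ∧
      A.valuation (4 * xco (P.freyCurve⁄Qb) t + cB P Qb) = A.valuation (4 : Qb) :=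
  loc_two_Qb P (freyCurve_baseChange_eq_map P) hA htp ht0 hZ

/-- **LOC-UNIT** in the Prelude's vocabulary (`InZeroComponentAt`). -/
theorem loc_unit_inZeroComponentAt {ℓ : ℕ} (hℓ : ℓ.Prime) (hℓ2 : ℓ ≠ 2) (hℓp : ℓ ≠ P.p)
    (hA : A.LiesOverPrime ℓ) {t : ((P.freyCurveInt.map (Int.castRingHom ℚ))⁄Qb).Point}
    (htp : P.p • t = 0) (ht0 : t ≠ 0) (hZ : P.freyCurveInt.InZeroComponentAt A t) :
    A.valuation (4 * xco ((P.freyCurveInt.map (Int.castRingHom ℚ))⁄Qb) t) = 1 ∧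
      A.valuation (4 * xco ((P.freyCurveInt.map (Int.castRingHom ℚ))⁄Qb) t - cA P Qb) = 1 ∧
      A.valuation (4 * xco ((P.freyCurveInt.map (Int.castRingHom ℚ))⁄Qb) t + cB P Qb) = 1 :=
  loc_unit_Qb P (freyInt_baseChange_eq_map P) hℓ hℓ2 hℓp hA htp ht0 hZ

/-- **LOC-2** in the Prelude's vocabulary (`InZeroComponentAt`). -/
theorem loc_two_inZeroComponentAt (hA : A.LiesOverPrime 2)
    {t : ((P.freyCurveInt.map (Int.castRingHom ℚ))⁄Qb).Point}
    (htp : P.p • t = 0) (ht0 : t ≠ 0) (hZ : P.freyCurveInt.InZeroComponentAt A t) :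
    A.valuation (4 * xco ((P.freyCurveInt.map (Int.castRingHom ℚ))⁄Qb) t) =
        A.valuation (4 : Qb) ∧
      A.valuation (4 * xco ((P.freyCurveInt.map (Int.castRingHom ℚ))⁄Qb) t - cA P Qb) = 1 ∧
      A.valuation (4 * xco ((P.freyCurveInt.map (Int.castRingHom ℚ))⁄Qb) t + cB P Qb) =
        A.valuation (4 : Qb) :=
  loc_two_Qb P (freyInt_baseChange_eq_map P) hA htp ht0 hZ

end Incarnations

end Fermat.Agent.S12P.LocUnit28
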