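/-
S12 programme (helper28): the three statements consumed by K-ASM at the primes `ℓ ≠ p`, in the
programme's convention (`t : (P.freyCurve⁄ℚ̄).Point`, zero component at `A` spelled
`Loc44.InZero P.freyCurveInt A t`).

* `frey_units` : UNIFORM in `ℓ ≠ p` (`ℓ = 2` included): for `t ≠ 0`, `p • t = 0`, `t` in the zero
  component at `A ∣ ℓ`: `x(t)`, `4x(t) - a^p`, `x(t) + b^p/4` are units of `A`.
* `inZero_of_val_Δ_eq_one`, `frey_inZero_of_good` (G): at a prime `ℓ ∤ Δ` EVERY point is in the zero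
  component.
* `frey_inZero_nsmul_iff` (N): `InZero (k • t) ↔ InZero t` for `p ∤ k`.
-/
import Mathlib
import Fermat.Agent.S12P.LocUnit28.Qbar

set_option autoImplicit false
set_option linter.unusedSectionVars false

open WeierstrassCurve WeierstrassCurve.Affine

namespace Fermat.Agent.S12P.LocUnit28

open Fermat.Agent.S05.Kernel Fermat.Agent.S05.Inertia Fermat.Agent.InertiaMult
open Fermat.Agent.MAZ.Loc44 (InZero)
open Fermat.Agent.MAZ.ModInv (xco)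
open Fermat.Agent.S04.FreyIntegral

section Good

variable {L : Type*} [Field L] (W : WeierstrassCurve ℤ) {A : ValuationSubring L}

/-- **(G)** At a place of good reduction every point lies in the zero component. -/
theorem inZero_of_val_Δ_eq_one (hΔ : A.valuation ((W.Δ : ℤ) : L) = 1) {VL : Affine L}
    (hVL : VL = (W.map (Int.castRingHom L)).toAffine) (R : VL.Point) : InZero W A R := by
  classical
  subst hVL
  have hint : IntegralCoeffs A.valuation (W.map (Int.castRingHom L)).toAffine :=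
    integralCoeffs_map W
  rcases R with _ | ⟨x, y, h⟩
  · exact Or.inl rfl
  by_cases hxA : x ∈ A
  · have hvx : A.valuation x ≤ 1 := (A.valuation_le_one_iff x).mpr hxA
    have hyA : y ∈ A := (A.valuation_le_one_iff y).mp (val_y_le_one hint h.1 hvx)
    have hEqk := equation_residue A W ⟨x, hxA⟩ ⟨y, hyA⟩ h.1
    have hΔu : IsUnit (((W.Δ : ℤ) : A)) := by
      rw [ValuationSubring.valuation_eq_one_iff]
      simpa using hΔ
    have hΔk : (W.map (Int.castRingHom (IsLocalRing.ResidueField A))).Δ ≠ 0 := by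
      rw [WeierstrassCurve.map_Δ, eq_intCast, ← map_intCast (IsLocalRing.residue A)]
      exact (IsLocalRing.residue_ne_zero_iff_isUnit _).mpr hΔu
    have hnsk := (equation_iff_nonsingular_of_Δ_ne_zero hΔk).mp hEqk
    exact Or.inr ⟨x, y, h, rfl, Or.inr ⟨hxA, hyA, hnsk⟩⟩
  · exact Or.inr ⟨x, y, h, rfl, Or.inl hxA⟩

end Good

section Qbar

local notation "Qb" => AlgebraicClosure ℚ

variable (P : FreyPackage) {A : ValuationSubring Qb}

/-- **LOC-UNIT + LOC-2, uniform statement**: `A` over a prime `ℓ ≠ p`, `t` a nonzero `p`-torsion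
point of the Frey curve in the zero component at `A`: `x(t)`, `4x(t) - a^p`, `x(t) + b^p/4` are
units of `A`. -/
theorem frey_units {ℓ : ℕ} (hℓ : ℓ.Prime) (hℓp : ℓ ≠ P.p) (hA : A.LiesOverPrime ℓ)
    (t : (P.freyCurve⁄Qb).Point) (ht : P.p • t = 0) (ht0 : t ≠ 0)
    (hin : InZero P.freyCurveInt A t) :
    A.valuation (xco (P.freyCurve⁄Qb) t) = 1 ∧
      A.valuation (4 * xco (P.freyCurve⁄Qb) t - ((P.a : ℤ) : Qb) ^ P.p) = 1 ∧
      A.valuation (xco (P.freyCurve⁄Qb) t + ((P.b : ℤ) : Qb) ^ P.p / 4) = 1 := by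
  have hVL := freyCurve_baseChange_eq_map P
  by_cases hℓ2 : ℓ = 2
  · subst hℓ2
    obtain ⟨h1, h2, h3⟩ := loc_two_Qb_unscaled P hVL hA ht ht0 hin
    exact ⟨h1, h3, h2⟩
  · obtain ⟨h1, -, h3⟩ := loc_unit_Qb_unscaled P hVL hℓ hℓ2 hℓp hA ht ht0 hin
    obtain ⟨-, h2, -⟩ := loc_unit_Qb P hVL hℓ hℓ2 hℓp hA ht ht0 hin
    exact ⟨h1, h2, h3⟩

/-- **(G)** for the Frey curve: at a prime `ℓ ∤ Δ` (i.e. `ℓ ∤ abc`) every point is in the zero
component. -/
theorem frey_inZero_of_good {ℓ : ℕ} (hℓ : ℓ.Prime) (hA : A.LiesOverPrime ℓ)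
    (hΔ : ¬ (ℓ : ℤ) ∣ P.freyCurveInt.Δ) (t : (P.freyCurve⁄Qb).Point) :
    InZero P.freyCurveInt A t :=
  inZero_of_val_Δ_eq_one P.freyCurveInt (valuation_intCast_eq_one hℓ hA hΔ)
    (freyCurve_baseChange_eq_map P) t

/-- **(G)**, with the hypothesis `ℓ ∤ abc`. -/
theorem frey_inZero_of_not_dvd_abc {ℓ : ℕ} (hℓ : ℓ.Prime) (hA : A.LiesOverPrime ℓ)
    (habc : ¬ (ℓ : ℤ) ∣ P.a * P.b * P.c) (t : (P.freyCurve⁄Qb).Point) :
    InZero P.freyCurveInt A t := by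
  refine frey_inZero_of_good P hℓ hA (fun hd => habc ?_) t
  have hqp : Prime (ℓ : ℤ) := Nat.prime_iff_prime_int.mp hℓ
  rw [freyCurveInt_Δ] at hd
  rcases hqp.dvd_or_dvd hd with h | h
  · have h1 : (ℓ : ℤ) ∣ P.freyCurveInt.a₄ := hqp.dvd_of_dvd_pow h
    have h2 : (ℓ : ℤ) ∣ 16 * P.freyCurveInt.a₄ := Dvd.dvd.mul_left h1 _
    rw [sixteen_mul_a₄] at h2
    rcases hqp.dvd_or_dvd h2 with h3 | h3
    · exact Dvd.dvd.mul_right (Dvd.dvd.mul_right (hqp.dvd_of_dvd_pow ((dvd_neg).mp h3)) _) _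
    · exact Dvd.dvd.mul_right (Dvd.dvd.mul_left (hqp.dvd_of_dvd_pow h3) _) _
  · exact Dvd.dvd.mul_left (hqp.dvd_of_dvd_pow (hqp.dvd_of_dvd_pow h)) _

/-- **(N)** `InZero (k • t) ↔ InZero t` for `p ∤ k`, at `A` over `ℓ ≠ p`. -/
theorem frey_inZero_nsmul_iff {ℓ : ℕ} (hℓ : ℓ.Prime) (hℓp : ℓ ≠ P.p) (hA : A.LiesOverPrime ℓ)
    {t : (P.freyCurve⁄Qb).Point} (ht : P.p • t = 0) (ht0 : t ≠ 0) {k : ℕ} (hk : ¬ P.p ∣ k) :
    InZero P.freyCurveInt A (k • t) ↔ InZero P.freyCurveInt A t := by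
  classical
  exact Fermat.Agent.MAZ.Loc44.inZero_nsmul_iff P.freyCurveInt P.pp
    (by have := P.hp5; omega) (valuation_prime_eq_one hℓ hA P.pp hℓp)
    (freyCurve_baseChange_eq_map P) ht ht0 hk

/-- the multiples `k • t`, `p ∤ k`, are again nonzero `p`-torsion points. -/
theorem frey_nsmul_ne_zero {t : (P.freyCurve⁄Qb).Point} (ht : P.p • t = 0) (ht0 : t ≠ 0)
    {k : ℕ} (hk : ¬ P.p ∣ k) : P.p • (k • t) = 0 ∧ k • t ≠ 0 :=
  ⟨by rw [smul_comm, ht, nsmul_zero],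
    Fermat.Agent.MAZ.Loc44.nsmul_ne_zero_of_not_dvd P.pp ht ht0 hk⟩

/-- `frey_units` for all the multiples `k • t`, `p ∤ k`. -/
theorem frey_units_nsmul {ℓ : ℕ} (hℓ : ℓ.Prime) (hℓp : ℓ ≠ P.p) (hA : A.LiesOverPrime ℓ)
    (t : (P.freyCurve⁄Qb).Point) (ht : P.p • t = 0) (ht0 : t ≠ 0)
    (hin : InZero P.freyCurveInt A t) {k : ℕ} (hk : ¬ P.p ∣ k) :
    A.valuation (xco (P.freyCurve⁄Qb) (k • t)) = 1 ∧
      A.valuation (4 * xco (P.freyCurve⁄Qb) (k • t) - ((P.a : ℤ) : Qb) ^ P.p) = 1 ∧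
      A.valuation (xco (P.freyCurve⁄Qb) (k • t) + ((P.b : ℤ) : Qb) ^ P.p / 4) = 1 := by
  obtain ⟨h1, h2⟩ := frey_nsmul_ne_zero P ht ht0 hk
  exact frey_units P hℓ hℓp hA (k • t) h1 h2
    ((frey_inZero_nsmul_iff P hℓ hℓp hA ht ht0 hk).mpr hin)

end Qbar

end Fermat.Agent.S12P.LocUnit28
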